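import Mathlib
import Fermat.Agent.S34.Transfer
import Fermat.Agent.S31.DVRPoints

/-!
# S34 from a statement about the `p`-adic representations of eigen-systems
(owner: helper62)

`UnipotentPoints p N S q`: every point `χ : 𝕋 → O'` of the Hecke algebra `𝕋 = heckeAlgebra N 2 S`
in a complete discrete valuation ring `O'` of characteristic zero with finite residue field of
characteristic `p` has an attached representation (over a finite extension `O''` of `O'`, with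
the Frobenius characteristic polynomials `X² - χ(T_ℓ) X + ℓ`, `ℓ ∉ S`) which is unipotent on
inertia at `q`.  This is a statement about `p`-adic representations of single eigen-systems
(the frozen S30 with one more clause).

`S34Statement_of_unipotentPoints`: the frozen S34 (all `𝒪`, all `T`) follows from
`UnipotentPoints p N S q` for all `q ‖ N`, `q ≠ p`.  Frobenius density, the separation of the
Hecke algebra by DVR points (Petersson + S22 + Lib/DVRPoints) are already discharged.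
-/

namespace Fermat.Agent.S34

open Polynomial Fermat.Agent.F3 Fermat.Agent.TraceRigidity Fermat.Agent.S31 IsLocalRing

/-- Every `p`-adic point of the Hecke algebra of level `N` carries a representation with the
right Frobenius characteristic polynomials which is unipotent on inertia at `q`. -/
def UnipotentPoints (p N : ℕ) [NeZero N] (S : Finset ℕ) (q : ℕ) : Prop :=
  ∀ (𝒪' : Type) [CommRing 𝒪'] [IsDomain 𝒪'] [IsDiscreteValuationRing 𝒪']
    [IsAdicComplete (IsLocalRing.maximalIdeal 𝒪') 𝒪'] [Finite (IsLocalRing.ResidueField 𝒪')]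
    [CharZero 𝒪'] (_hp𝒪' : (p : 𝒪') ∈ IsLocalRing.maximalIdeal 𝒪')
    (χ : CuspForm.heckeAlgebra N 2 (↑S : Set ℕ) →+* 𝒪'),
    ∃ (𝒪'' : Type) (_ : CommRing 𝒪'') (_ : IsDomain 𝒪'') (_ : IsDiscreteValuationRing 𝒪'')
      (_ : Algebra 𝒪' 𝒪''),
    Function.Injective (algebraMap 𝒪' 𝒪'') ∧
    ∃ ρ : GaloisRepAdic 𝒪'',
      (∀ (ℓ : ℕ) (hℓ : ℓ.Prime) (hℓN : ¬ ℓ ∣ N) (hℓS : ℓ ∉ (↑S : Set ℕ)),
        ∀ A : ValuationSubring (AlgebraicClosure ℚ), A.LiesOverPrime ℓ →
          ∀ σ : AlgebraicClosure ℚ ≃ₐ[ℚ] AlgebraicClosure ℚ, A.IsFrobeniusAt σ ℓ →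
            LinearMap.charpoly (ρ.ρ σ) =
              X ^ 2 - C (algebraMap 𝒪' 𝒪'' (χ (CuspForm.heckeAlgebra.T hℓ hℓN hℓS))) * X
                + C ((ℓ : 𝒪''))) ∧
      ρ.IsUnipotentOnInertiaAt q

variable {p : ℕ} {N : ℕ} [NeZero N] {S : Finset ℕ}

/-- Separating points carrying representations which are unipotent on inertia at `q`. -/
theorem exists_repPoints_of_unipotentPoints (hp : p.Prime)
    (hNS : ∀ q : ℕ, q.Prime → q ∣ N → q ∈ S) (q : ℕ) (hU : UnipotentPoints p N S q) :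
    ∃ (d : ℕ) (P : Fin d → HeckeRepPoint N S), IsSeparating p P ∧
      ∀ i, (P i).ρ.IsUnipotentOnInertiaAt q := by
  classical
  obtain ⟨d, P, hP⟩ := heckeDVRSeparation p N S hp hNS
  have key : ∀ i : Fin d, ∃ Q : HeckeRepPoint N S, Q.ρ.IsUnipotentOnInertiaAt q ∧
      ∀ m : ℕ, ∃ m' : ℕ, ∀ X : CuspForm.heckeAlgebra N 2 (↑S : Set ℕ),
        Q.χ X ∈ IsLocalRing.maximalIdeal Q.O ^ m' →
          (P i).χ X ∈ IsLocalRing.maximalIdeal (P i).O ^ m := by
    intro i
    obtain ⟨O'', i1, i2, i3, i4, hinj, ρ, hρ, hunip⟩ := hU (P i).O (P i).hp (P i).χ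
    refine ⟨{ O := O'', χ := (algebraMap (P i).O O'').comp (P i).χ, ρ := ρ,
              charpoly_frob := fun ℓ hℓ hℓN hℓS A hA σ hσ => hρ ℓ hℓ hℓN hℓS A hA σ hσ },
            hunip, fun m => ?_⟩
    obtain ⟨m', hm'⟩ := exists_pow_contract (algebraMap (P i).O O'') hinj m
    exact ⟨m', fun X hX => hm' _ hX⟩
  choose Q hQu hQ using key
  refine ⟨d, Q, fun r => ?_, hQu⟩
  obtain ⟨m, hm⟩ := hP r
  choose m' hm' using fun i => hQ i m
  refine ⟨Finset.univ.sup m', fun X hX => hm X fun i => hm' i X ?_⟩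
  exact Ideal.pow_le_pow_right (Finset.le_sup (Finset.mem_univ i)) (hX i)

/-- The frozen statement of S34, as a proposition. -/
def S34Statement : Prop :=
  ∀ {𝒪 : Type} [CommRing 𝒪] [IsDomain 𝒪] [IsDiscreteValuationRing 𝒪]
    [IsAdicComplete (maximalIdeal 𝒪) 𝒪] [Finite (ResidueField 𝒪)] [CharZero 𝒪]
    {p : ℕ} (_hp : p.Prime) (_hp𝒪 : (p : 𝒪) ∈ maximalIdeal 𝒪)
    {N : ℕ} [NeZero N] {S : Finset ℕ} (_hpS : p ∈ S) (_hNS : ∀ q : ℕ, q.Prime → q ∣ N → q ∈ S)
    {θ : CuspForm.heckeAlgebra N 2 (↑S : Set ℕ) →+* ResidueField 𝒪}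
    {T : Type} [CommRing T] [IsLocalRing T] [IsNoetherianRing T]
    [IsAdicComplete (maximalIdeal T) T] [Algebra 𝒪 T] [IsLocalHom (algebraMap 𝒪 T)]
    [Module.Finite 𝒪 T] [Module.Free 𝒪 T]
    (H : CuspForm.HeckeGaloisRepDatum N (↑S : Set ℕ) 𝒪 θ T)
    (q : ℕ) (_hq : q.Prime) (_hqp : q ≠ p) (_hqN : q ∣ N) (_hq2 : ¬ q ^ 2 ∣ N),
    H.ρ.IsUnipotentOnInertiaAt q

/-- **S34 from the `p`-adic representations of eigen-systems.** -/
theorem S34Statement_of_unipotentPoints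
    (hU : ∀ (p N : ℕ) [NeZero N] (S : Finset ℕ) (q : ℕ), p.Prime → p ∈ S →
      (∀ q : ℕ, q.Prime → q ∣ N → q ∈ S) → q.Prime → q ≠ p → q ∣ N → ¬ q ^ 2 ∣ N →
        UnipotentPoints p N S q) :
    S34Statement := by
  intro 𝒪 _ _ _ _ _ _ p hp hp𝒪 N _ S hpS hNS θ T _ _ _ _ _ _ _ _ H q hq hqp hqN hq2
  obtain ⟨d, P, hP, hPu⟩ := exists_repPoints_of_unipotentPoints hp hNS q
    (hU p N S q hp hpS hNS hq hqp hqN hq2)
  exact isUnipotentOnInertiaAt_of_repPoints frobDensityLite hp𝒪 hNS H P hP q hPu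

end Fermat.Agent.S34
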